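/-
S56 / GW / LinAlg : pure linear algebra: the "cut to `Q`" version of `S55.LA.D4`.
-/
import Fermat.Agent.S55.D.LinAlg

set_option autoImplicit false

noncomputable section

namespace Fermat.Agent.S56.GW

open Module Function Fermat.Agent.S55 Fermat.Agent.S55.LA

variable {k : Type} [Field k]

/-- for an idempotent `e`: `dim range e + dim range (1 - e) = dim V`, in the form we need. -/
theorem finrank_sup_range_one_sub {V : Type} [AddCommGroup V] [Module k V] [FiniteDimensional k V]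
    (e : V →ₗ[k] V) (he : ∀ x, e (e x) = e x) (T : Submodule k V) (hT : T ≤ LinearMap.range e) :
    finrank k (T ⊔ LinearMap.ker e : Submodule k V) + finrank k (LinearMap.range e)
      = finrank k T + finrank k V := by
  have hdisj : T ⊓ LinearMap.ker e = ⊥ := by
    rw [eq_bot_iff]
    rintro x ⟨hx1, hx2⟩
    obtain ⟨y, rfl⟩ := hT hx1
    have : e (e y) = 0 := hx2
    rw [he] at this
    simpa using this
  have h1 := Submodule.finrank_sup_add_finrank_inf_eq T (LinearMap.ker e)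
  rw [hdisj, finrank_bot, add_zero] at h1
  have h2 := LinearMap.finrank_range_add_finrank_ker e
  omega

/-- **D4 cut to `Q`.**  Dictionary (`0→Y→I→C→0` effacing `H¹(Y)`, dual `0→C*→I*→X→0`):
`HQ = H⁰(C)`, `HX = H¹(Y)`, `HX' = H¹(X)`, `HQ2 = H²(C*)`, `PI = P⁰(I)`, `PQ = P⁰(C)`,
`PX = P¹(Y)`, `PX' = P¹(X)`, `PQ2 = P²(C*)`, `PI2 = P²(I*)`; the `e`'s are the idempotents
"keep the components in `Q`". -/
theorem D4cut {HQ HX HX' HQ2 PI PQ PX PX' PQ2 PI2 : Type}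
    [AddCommGroup HQ] [Module k HQ] [AddCommGroup HX] [Module k HX]
    [AddCommGroup HX'] [Module k HX'] [AddCommGroup HQ2] [Module k HQ2]
    [AddCommGroup PI] [Module k PI] [AddCommGroup PQ] [Module k PQ]
    [AddCommGroup PX] [Module k PX] [AddCommGroup PX'] [Module k PX']
    [AddCommGroup PQ2] [Module k PQ2] [AddCommGroup PI2] [Module k PI2]
    [FiniteDimensional k PI] [FiniteDimensional k PQ] [FiniteDimensional k PX]
    [FiniteDimensional k PX'] [FiniteDimensional k PQ2] [FiniteDimensional k PI2]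
    (δ : HQ →ₗ[k] HX) (hδ : Surjective δ)
    (π0 : PI →ₗ[k] PQ) (δP : PQ →ₗ[k] PX) (ex1 : Exact π0 δP)
    (locQ : HQ →ₗ[k] PQ) (locX : HX →ₗ[k] PX) (lad1 : ∀ q, locX (δ q) = δP (locQ q))
    (δ' : HX' →ₗ[k] HQ2) (δP' : PX' →ₗ[k] PQ2) (j2 : PQ2 →ₗ[k] PI2) (ex2 : Exact δP' j2)
    (locX' : HX' →ₗ[k] PX') (locQ2 : HQ2 →ₗ[k] PQ2)
    (lad2 : ∀ x, locQ2 (δ' x) = δP' (locX' x))
    (BQ : PQ2 →ₗ[k] PQ →ₗ[k] k) (BI : PI2 →ₗ[k] PI →ₗ[k] k) (hBQ : Perf BQ) (hBI : Perf BI)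
    (adj : ∀ z s, BI (j2 z) s = BQ z (π0 s))
    (orth : ∀ z q, BQ (locQ2 z) (locQ q) = 0)
    (eQ : PQ →ₗ[k] PQ) (eX : PX →ₗ[k] PX) (eX' : PX' →ₗ[k] PX') (eQ2 : PQ2 →ₗ[k] PQ2)
    (heQ : ∀ x, eQ (eQ x) = eQ x) (heQ2 : ∀ x, eQ2 (eQ2 x) = eQ2 x)
    (hadj : ∀ z y, BQ (eQ2 z) y = BQ z (eQ y))
    (hc1 : ∀ y, δP (eQ y) = eX (δP y)) (hc2 : ∀ x, δP' (eX' x) = eQ2 (δP' x))
    (N0 : Submodule k HX') (hN0 : ∀ x ∈ N0, eX' (locX' x) = locX' x) :
    finrank k (LinearMap.range (eX ∘ₗ locX)) + finrank k (N0.map locX')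
      ≤ finrank k (LinearMap.range eX') := by
  have hk2 : LinearMap.ker j2 = LinearMap.range δP' := LinearMap.exact_iff.mp ex2
  set T0 : Submodule k PQ := LinearMap.range (eQ ∘ₗ π0) with hT0
  set T1 : Submodule k PQ := T0 ⊔ LinearMap.range (eQ ∘ₗ locQ) with hT1
  set A0 : Submodule k PX' := N0.map locX' with hA0
  have hT1e : T1 ≤ LinearMap.range eQ := by
    rw [hT1]
    refine sup_le ?_ ?_
    · rintro _ ⟨s, rfl⟩; exact ⟨π0 s, rfl⟩
    · rintro _ ⟨q, rfl⟩; exact ⟨locQ q, rfl⟩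
  -- (E1)
  have hB : LinearMap.range (eX ∘ₗ locX) ≤ T1.map δP := by
    rintro _ ⟨x, rfl⟩
    obtain ⟨q, rfl⟩ := hδ x
    refine ⟨eQ (locQ q), Submodule.mem_sup_right ⟨q, rfl⟩, ?_⟩
    rw [hc1, ← lad1]; rfl
  have hT0k : T0 ≤ T1 ⊓ LinearMap.ker δP := by
    refine le_inf le_sup_left ?_
    rintro _ ⟨s, rfl⟩
    rw [LinearMap.mem_ker, LinearMap.comp_apply, hc1, (ex1 _).mpr ⟨s, rfl⟩, map_zero]
  have E1 := finrank_map_add δP T1
  have E1a := Submodule.finrank_mono hB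
  have E1b := Submodule.finrank_mono hT0k
  -- (E3)
  have hz : ∀ x ∈ N0, eQ2 (δP' (locX' x)) = δP' (locX' x) := by
    intro x hx
    rw [← hc2, hN0 x hx]
  have E3 := hBQ.finrank_add_le (A0.map δP') (T1 ⊔ LinearMap.ker eQ) (by
    rintro _ ⟨_, ⟨x, hx, rfl⟩, rfl⟩ w hw
    obtain ⟨t, ht, r, hr, rfl⟩ := Submodule.mem_sup.mp hw
    obtain ⟨t0, ⟨s, rfl⟩, t1, ⟨q, rfl⟩, rfl⟩ := Submodule.mem_sup.mp ht
    have hr' : eQ r = 0 := hr
    have h1 : BQ (δP' (locX' x)) ((eQ ∘ₗ π0) s) = 0 := by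
      rw [LinearMap.comp_apply, ← hadj, hz x hx, ← adj, (ex2 _).mpr ⟨_, rfl⟩]; simp
    have h2 : BQ (δP' (locX' x)) ((eQ ∘ₗ locQ) q) = 0 := by
      rw [LinearMap.comp_apply, ← hadj, hz x hx, ← lad2, orth]
    have h3 : BQ (δP' (locX' x)) r = 0 := by
      rw [← hz x hx, hadj, hr', map_zero]
    rw [map_add, map_add, h1, h2, h3]; simp)
  have E3' := finrank_sup_range_one_sub eQ heQ T1 hT1e
  have E3'' := hBQ.finrank_eq
  -- (E4)
  have hA0e : A0 ≤ LinearMap.range eX' := by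
    rintro _ ⟨x, hx, rfl⟩
    exact ⟨locX' x, hN0 x hx⟩
  have E4 := finrank_map_add δP' A0
  have E4' : finrank k (A0 ⊓ LinearMap.ker δP' : Submodule k PX') ≤
      finrank k (LinearMap.range eX' ⊓ LinearMap.ker δP' : Submodule k PX') :=
    Submodule.finrank_mono (inf_le_inf_right _ hA0e)
  -- (E5)
  have E5 := finrank_map_add δP' (LinearMap.range eX')
  -- (E6)
  have hZ : (LinearMap.range eX').map δP' = LinearMap.range eQ2 ⊓ LinearMap.ker j2 := by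
    apply le_antisymm
    · rintro _ ⟨_, ⟨x, rfl⟩, rfl⟩
      refine ⟨⟨δP' x, (hc2 x).symm⟩, ?_⟩
      rw [hk2]; exact ⟨eX' x, rfl⟩
    · rintro z ⟨⟨z', rfl⟩, hz2⟩
      rw [hk2] at hz2
      obtain ⟨w, hw⟩ := hz2
      refine ⟨eX' w, ⟨w, rfl⟩, ?_⟩
      rw [hc2, hw, heQ2]
  have E6 := finrank_map_add j2 (LinearMap.range eQ2)
  have E6a : (LinearMap.range eQ2).map j2 = LinearMap.range (j2 ∘ₗ eQ2) :=
    (LinearMap.range_comp eQ2 j2).symm
  have E6b : finrank k (LinearMap.range (j2 ∘ₗ eQ2)) = finrank k T0 :=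
    hBQ.rank_adjoint hBI (j2 ∘ₗ eQ2) (eQ ∘ₗ π0) (fun z s => by
      rw [LinearMap.comp_apply, LinearMap.comp_apply, adj, hadj])
  have E6c : finrank k (LinearMap.range eQ2) = finrank k (LinearMap.range eQ) :=
    hBQ.rank_adjoint hBQ eQ2 eQ hadj
  rw [hZ] at E5
  rw [E6a, E6b] at E6
  omega

end Fermat.Agent.S56.GW

end
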