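/-
S56 / GW / Cut : the idempotents "keep the components in `Qs`" on `P⁰, P¹, P²` of an abstract
arithmetic datum (S55/D), explicit local connecting maps, and their compatibilities.
-/
import Fermat.Agent.S55.D.Main
import Fermat.Agent.S56.GW.LinAlg

set_option autoImplicit false
set_option linter.unusedSectionVars false

noncomputable section

namespace Fermat.Agent.S56.GW

open Module Function Fermat.Agent.S55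

variable {p : ℕ} [Fact p.Prime] (𝒜 : Datum p)

section cut
variable {X : Type} [AddCommGroup X] [Module (ZMod p) X]

open Classical in
/-- keep the components in `Qs` -/
def cut0 (Qs : Set 𝒜.ι) (ρ : Representation (ZMod p) 𝒜.G X) : 𝒜.P0 ρ →ₗ[ZMod p] 𝒜.P0 ρ :=
  LinearMap.pi fun v => if v ∈ Qs then LinearMap.proj v else 0

open Classical in
/-- keep the components in `Qs` -/
def cut1 (Qs : Set 𝒜.ι) (ρ : Representation (ZMod p) 𝒜.G X) : 𝒜.P1 ρ →ₗ[ZMod p] 𝒜.P1 ρ :=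
  LinearMap.pi fun v => if v ∈ Qs then LinearMap.proj v else 0

open Classical in
/-- keep the components in `Qs` -/
def cut2 (Qs : Set 𝒜.ι) (ρ : Representation (ZMod p) 𝒜.G X) : 𝒜.P2 ρ →ₗ[ZMod p] 𝒜.P2 ρ :=
  LinearMap.pi fun v => if v ∈ Qs then LinearMap.proj v else 0

variable {𝒜} {Qs : Set 𝒜.ι} {ρ : Representation (ZMod p) 𝒜.G X}

lemma cut0_of_mem {v : 𝒜.ι} (hv : v ∈ Qs) (x : 𝒜.P0 ρ) : cut0 𝒜 Qs ρ x v = x v := by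
  simp [cut0, hv]

lemma cut0_of_not_mem {v : 𝒜.ι} (hv : v ∉ Qs) (x : 𝒜.P0 ρ) : cut0 𝒜 Qs ρ x v = 0 := by
  simp [cut0, hv]

lemma cut1_of_mem {v : 𝒜.ι} (hv : v ∈ Qs) (x : 𝒜.P1 ρ) : cut1 𝒜 Qs ρ x v = x v := by
  simp [cut1, hv]

lemma cut1_of_not_mem {v : 𝒜.ι} (hv : v ∉ Qs) (x : 𝒜.P1 ρ) : cut1 𝒜 Qs ρ x v = 0 := by
  simp [cut1, hv]

lemma cut2_of_mem {v : 𝒜.ι} (hv : v ∈ Qs) (x : 𝒜.P2 ρ) : cut2 𝒜 Qs ρ x v = x v := by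
  simp [cut2, hv]

lemma cut2_of_not_mem {v : 𝒜.ι} (hv : v ∉ Qs) (x : 𝒜.P2 ρ) : cut2 𝒜 Qs ρ x v = 0 := by
  simp [cut2, hv]

lemma cut0_cut0 (x : 𝒜.P0 ρ) : cut0 𝒜 Qs ρ (cut0 𝒜 Qs ρ x) = cut0 𝒜 Qs ρ x := by
  funext v
  by_cases hv : v ∈ Qs
  · rw [cut0_of_mem hv]
  · rw [cut0_of_not_mem hv, cut0_of_not_mem hv]

lemma cut2_cut2 (x : 𝒜.P2 ρ) : cut2 𝒜 Qs ρ (cut2 𝒜 Qs ρ x) = cut2 𝒜 Qs ρ x := by
  funext v
  by_cases hv : v ∈ Qs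
  · rw [cut2_of_mem hv]
  · rw [cut2_of_not_mem hv, cut2_of_not_mem hv]

end cut

section les
variable {A B C : Type} [AddCommGroup A] [Module (ZMod p) A] [AddCommGroup B] [Module (ZMod p) B]
  [AddCommGroup C] [Module (ZMod p) C]
  {ρA : Representation (ZMod p) 𝒜.G A} {ρB : Representation (ZMod p) 𝒜.G B}
  {ρC : Representation (ZMod p) 𝒜.G C}
  [Smooth 𝒜.L ρA] [Smooth 𝒜.L ρB] [Smooth 𝒜.L ρC]

/-- the product of the local connecting maps `H⁰ → H¹` -/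
def dP0 (E : SES ρA ρB ρC) : 𝒜.P0 ρC →ₗ[ZMod p] 𝒜.P1 ρA :=
  LinearMap.pi fun v => (E.sub (𝒜.D v)).δ0 (𝒜.Lv v) ∘ₗ LinearMap.proj v

/-- the product of the local connecting maps `H¹ → H²` -/
def dP1 (E : SES ρA ρB ρC) : 𝒜.P1 ρC →ₗ[ZMod p] 𝒜.P2 ρA :=
  LinearMap.pi fun v => (E.sub (𝒜.D v)).δ1 (𝒜.Lv v) ∘ₗ LinearMap.proj v

variable {𝒜}

lemma dP0_apply (E : SES ρA ρB ρC) (x : 𝒜.P0 ρC) (v : 𝒜.ι) :
    dP0 𝒜 E x v = (E.sub (𝒜.D v)).δ0 (𝒜.Lv v) (x v) := rfl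

lemma dP1_apply (E : SES ρA ρB ρC) (x : 𝒜.P1 ρC) (v : 𝒜.ι) :
    dP1 𝒜 E x v = (E.sub (𝒜.D v)).δ1 (𝒜.Lv v) (x v) := rfl

lemma dP0_cut (E : SES ρA ρB ρC) (Qs : Set 𝒜.ι) (x : 𝒜.P0 ρC) :
    dP0 𝒜 E (cut0 𝒜 Qs ρC x) = cut1 𝒜 Qs ρA (dP0 𝒜 E x) := by
  funext v
  by_cases hv : v ∈ Qs
  · rw [cut1_of_mem hv, dP0_apply, dP0_apply, cut0_of_mem hv]
  · rw [cut1_of_not_mem hv, dP0_apply, cut0_of_not_mem hv, map_zero]

lemma dP1_cut (E : SES ρA ρB ρC) (Qs : Set 𝒜.ι) (x : 𝒜.P1 ρC) :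
    dP1 𝒜 E (cut1 𝒜 Qs ρC x) = cut2 𝒜 Qs ρA (dP1 𝒜 E x) := by
  funext v
  by_cases hv : v ∈ Qs
  · rw [cut2_of_mem hv, dP1_apply, dP1_apply, cut1_of_mem hv]
  · rw [cut2_of_not_mem hv, dP1_apply, cut1_of_not_mem hv, map_zero]

lemma exact_l0_dP0 (E : SES ρA ρB ρC) : Exact (𝒜.l0 E.π E.π_comm) (dP0 𝒜 E) := fun y => by
  constructor
  · intro hy
    have hv := fun v => ((E.sub (𝒜.D v)).exact_π0_δ0 (𝒜.Lv v) (y v)).1 (congrFun hy v)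
    choose x hx using hv
    exact ⟨x, funext hx⟩
  · rintro ⟨x, rfl⟩
    funext v
    exact ((E.sub (𝒜.D v)).exact_π0_δ0 (𝒜.Lv v) _).2 ⟨x v, rfl⟩

lemma exact_dP1_l2 (E : SES ρA ρB ρC) : Exact (dP1 𝒜 E) (𝒜.l2 E.i E.i_comm) := fun y => by
  constructor
  · intro hy
    have hv := fun v => ((E.sub (𝒜.D v)).exact_δ1_i2 (𝒜.Lv v) (y v)).1 (congrFun hy v)
    choose x hx using hv
    exact ⟨x, funext hx⟩
  · rintro ⟨x, rfl⟩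
    funext v
    exact ((E.sub (𝒜.D v)).exact_δ1_i2 (𝒜.Lv v) _).2 ⟨x v, rfl⟩

lemma loc1_δ0 (E : SES ρA ρB ρC) (c : ↥(H0 ρC)) :
    𝒜.loc1 ρA (E.δ0 𝒜.L c) = dP0 𝒜 E (𝒜.loc0 ρC c) := by
  funext v
  exact (𝒜.LES_locHom E v).δ0_comm c

lemma loc2_δ1 (E : SES ρA ρB ρC) (c : H1 𝒜.L ρC) :
    𝒜.loc2 ρA (E.δ1 𝒜.L c) = dP1 𝒜 E (𝒜.loc1 ρC c) := by
  funext v
  exact (𝒜.LES_locHom E v).δ1_comm c

end les

section pairing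
variable {𝒜}
variable {X Y : Type} [AddCommGroup X] [Module (ZMod p) X] [AddCommGroup Y] [Module (ZMod p) Y]
  {ρ : Representation (ZMod p) 𝒜.G X} {σ : Representation (ZMod p) 𝒜.G Y}

/-- the cuts are adjoint for the total local pairing -/
lemma pairP_cut (ax : 𝒜.Axioms) (d : DualPair 𝒜.ω ρ σ) (Qs : Set 𝒜.ι) (z : 𝒜.P2 ρ)
    (y : 𝒜.P0 σ) :
    ax.pairP d (cut2 𝒜 Qs ρ z) y = ax.pairP d z (cut0 𝒜 Qs σ y) := by
  have hzero : ∀ (w : 𝒜.ι) (z : H2 (𝒜.Lv w) (rsub ρ (𝒜.D w))),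
      (Datum.toMu d w 0).map2 z = 0 := by
    intro w z
    have h := Datum.toMu_map2_smul d w 0 0 z
    rwa [zero_smul, zero_smul] at h
  rw [Datum.Axioms.pairP_apply, Datum.Axioms.pairP_apply]
  refine Finset.sum_congr rfl fun v _ => ?_
  by_cases hv : v ∈ Qs
  · rw [cut2_of_mem hv, cut0_of_mem hv]
  · rw [cut2_of_not_mem hv, cut0_of_not_mem hv, hzero, map_zero]

end pairing

end Fermat.Agent.S56.GW

end
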