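/-
S56 / GW / Main : the Greenberg–Wiles type INEQUALITY for an abstract arithmetic datum (S55/D):
if the dual Selmer group relative to `Qs` vanishes (`hkill`) and the local conditions at `Qs` are
everything, then
  `dim Sel(X) ≤ χ(X') + h⁰(X) - h⁰(X') + ∑_v (dim L_v - h⁰(D_v;X))`.
No pairing in degree (1,1) is needed: only "D4 cut to `Qs`".
-/
import Fermat.Agent.S56.GW.Cut

set_option autoImplicit false
set_option linter.unusedSectionVars false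

noncomputable section

namespace Fermat.Agent.S56.GW

open Module Function Fermat.Agent.S55

/-- a subspace of a space with jointly injective "coordinates" `pr v`, whose coordinates lie in
`L v`, has dimension at most `∑ dim L v`. -/
theorem finrank_le_sum_of_coord {k : Type} [Field k] {V : Type} [AddCommGroup V] [Module k V]
    {ι : Type} [Fintype ι] {W : ι → Type} [∀ v, AddCommGroup (W v)] [∀ v, Module k (W v)]
    [∀ v, FiniteDimensional k (W v)] (pr : ∀ v, V →ₗ[k] W v)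
    (hinj : ∀ x, (∀ v, pr v x = 0) → x = 0) (L : ∀ v, Submodule k (W v)) (T : Submodule k V)
    (hT : ∀ x ∈ T, ∀ v, pr v x ∈ L v) : finrank k T ≤ ∑ v, finrank k (L v) := by
  let g : T →ₗ[k] (∀ v, ↥(L v)) :=
    LinearMap.pi fun v => LinearMap.codRestrict (L v) (pr v ∘ₗ T.subtype) (fun x => hT x x.2 v)
  have hg : Injective g := by
    rw [injective_iff_map_eq_zero]
    intro x hx
    apply Subtype.ext
    apply hinj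
    intro v
    exact congrArg Subtype.val (congrFun hx v)
  have h := LinearMap.finrank_le_finrank_of_injective hg
  rwa [Module.finrank_pi_fintype] at h

variable {p : ℕ} [Fact p.Prime] {𝒜 : Datum p}

section SESs
variable {A B C A' B' C' : Type}
  [AddCommGroup A] [Module (ZMod p) A] [FiniteDimensional (ZMod p) A]
  [AddCommGroup B] [Module (ZMod p) B] [FiniteDimensional (ZMod p) B]
  [AddCommGroup C] [Module (ZMod p) C] [FiniteDimensional (ZMod p) C]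
  [AddCommGroup A'] [Module (ZMod p) A'] [FiniteDimensional (ZMod p) A']
  [AddCommGroup B'] [Module (ZMod p) B'] [FiniteDimensional (ZMod p) B']
  [AddCommGroup C'] [Module (ZMod p) C'] [FiniteDimensional (ZMod p) C']
  {ρA : Representation (ZMod p) 𝒜.G A} {ρB : Representation (ZMod p) 𝒜.G B}
  {ρC : Representation (ZMod p) 𝒜.G C} [Smooth 𝒜.L ρA] [Smooth 𝒜.L ρB] [Smooth 𝒜.L ρC]
  {σA : Representation (ZMod p) 𝒜.G A'} {σB : Representation (ZMod p) 𝒜.G B'}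
  {σC : Representation (ZMod p) 𝒜.G C'} [Smooth 𝒜.L σA] [Smooth 𝒜.L σB] [Smooth 𝒜.L σC]

/-- D4 cut to `Qs`, for a dual pair of sequences `0→X→I→Q→0`, `0→Q*→I*→X*→0` with
`H¹(X) → H¹(I)` zero. -/
theorem cutD4_of (ax : 𝒜.Axioms) {dA : DualPair 𝒜.ω ρA σA} {dB : DualPair 𝒜.ω ρB σB}
    {dC : DualPair 𝒜.ω ρC σC} (T : DualSES dA dB dC)
    (kill : ∀ x, 𝒜.g1 T.E.i T.E.i_comm x = 0) (Qs : Set 𝒜.ι)
    (N0 : Submodule (ZMod p) (H1 𝒜.L σA))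
    (hN0 : ∀ x ∈ N0, cut1 𝒜 Qs σA (𝒜.loc1 σA x) = 𝒜.loc1 σA x) :
    finrank (ZMod p) (LinearMap.range (cut1 𝒜 Qs ρA ∘ₗ 𝒜.loc1 ρA))
      + finrank (ZMod p) (N0.map (𝒜.loc1 σA))
      ≤ finrank (ZMod p) (LinearMap.range (cut1 𝒜 Qs σA)) := by
  have := ax.finP1 ρA
  have := ax.finP1 σA
  have := ax.finP2 σC
  have := ax.finP2 σB
  have hδ : Surjective (T.E.δ0 𝒜.L) := fun x => (T.E.exact_δ0_i1 𝒜.L x).1 (kill x)
  exact D4cut (k := ZMod p) (HQ := ↥(H0 ρC)) (HX := H1 𝒜.L ρA) (HX' := H1 𝒜.L σA)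
    (HQ2 := H2 𝒜.L σC) (PI := 𝒜.P0 ρB) (PQ := 𝒜.P0 ρC) (PX := 𝒜.P1 ρA) (PX' := 𝒜.P1 σA)
    (PQ2 := 𝒜.P2 σC) (PI2 := 𝒜.P2 σB)
    (T.E.δ0 𝒜.L) hδ (𝒜.l0 T.E.π T.E.π_comm) (dP0 𝒜 T.E) (exact_l0_dP0 T.E)
    (𝒜.loc0 ρC) (𝒜.loc1 ρA) (loc1_δ0 T.E)
    (T.E'.δ1 𝒜.L) (dP1 𝒜 T.E') (𝒜.l2 T.E'.i T.E'.i_comm) (exact_dP1_l2 T.E')
    (𝒜.loc1 σA) (𝒜.loc2 σC) (loc2_δ1 T.E')
    (ax.pairP dC.flip) (ax.pairP dB.flip) (ax.pairP_perf dC.flip) (ax.pairP_perf dB.flip)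
    (fun z s => ax.pairP_adj dC.flip dB.flip T.E'.i T.E'.i_comm T.E.π T.E.π_comm
      (fun c' b => (T.adj_π b c').symm) z s)
    (fun z q => ax.pairP_loc_loc dC.flip z q)
    (cut0 𝒜 Qs ρC) (cut1 𝒜 Qs ρA) (cut1 𝒜 Qs σA) (cut2 𝒜 Qs σC)
    cut0_cut0 cut2_cut2 (fun z y => pairP_cut ax dC.flip Qs z y)
    (fun y => dP0_cut T.E Qs y) (fun x => dP1_cut T.E' Qs x) N0 hN0

end SESs

section one
variable {X Y : Type} [AddCommGroup X] [Module (ZMod p) X] [AddCommGroup Y] [Module (ZMod p) Y]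
  [FiniteDimensional (ZMod p) X] [FiniteDimensional (ZMod p) Y]
  {ρ : Representation (ZMod p) 𝒜.G X} {σ : Representation (ZMod p) 𝒜.G Y}
  [Smooth 𝒜.L ρ] [Smooth 𝒜.L σ]

/-- D4 cut to `Qs`. -/
theorem cutD4 (ax : 𝒜.Axioms) (d : DualPair 𝒜.ω ρ σ) (Qs : Set 𝒜.ι)
    (N0 : Submodule (ZMod p) (H1 𝒜.L σ))
    (hN0 : ∀ x ∈ N0, cut1 𝒜 Qs σ (𝒜.loc1 σ x) = 𝒜.loc1 σ x) :
    finrank (ZMod p) (LinearMap.range (cut1 𝒜 Qs ρ ∘ₗ 𝒜.loc1 ρ))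
      + finrank (ZMod p) (N0.map (𝒜.loc1 σ))
      ≤ finrank (ZMod p) (LinearMap.range (cut1 𝒜 Qs σ)) := by
  have := ax.fin1 ρ
  obtain ⟨I, _, _, _, ρI, _, Q, _, _, _, ρQ, _, E, hE⟩ := 𝒜.exists_effacing ρ
  exact cutD4_of ax (DualSES.of E d (DualPair.canon 𝒜.ω ρI) (DualPair.canon 𝒜.ω ρQ)) hE Qs N0 hN0

end one

variable {X : Type} [AddCommGroup X] [Module (ZMod p) X]

/-- the Selmer group of the local conditions `Lc`. -/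
def Sel (𝒜 : Datum p) (ρ : Representation (ZMod p) 𝒜.G X)
    (Lc : ∀ v, Submodule (ZMod p) (H1 (𝒜.Lv v) (rsub ρ (𝒜.D v)))) :
    Submodule (ZMod p) (H1 𝒜.L ρ) where
  carrier := {x | ∀ v, (𝒜.loc v ρ).map1 x ∈ Lc v}
  add_mem' := fun {a b} ha hb v => by rw [map_add]; exact (Lc v).add_mem (ha v) (hb v)
  zero_mem' := fun v => by rw [map_zero]; exact (Lc v).zero_mem
  smul_mem' := fun c x hx v => by rw [map_smul]; exact (Lc v).smul_mem c (hx v)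

lemma mem_Sel {ρ : Representation (ZMod p) 𝒜.G X}
    {Lc : ∀ v, Submodule (ZMod p) (H1 (𝒜.Lv v) (rsub ρ (𝒜.D v)))} {x : H1 𝒜.L ρ} :
    x ∈ Sel 𝒜 ρ Lc ↔ ∀ v, (𝒜.loc v ρ).map1 x ∈ Lc v := Iff.rfl

variable [FiniteDimensional (ZMod p) X]

open Classical in
/-- **Greenberg–Wiles inequality**, for a dual pair `(Y, X)`. -/
theorem finrank_Sel_le_of (ax : 𝒜.Axioms) {Y : Type} [AddCommGroup Y] [Module (ZMod p) Y]
    [FiniteDimensional (ZMod p) Y] (ρ : Representation (ZMod p) 𝒜.G X) [Smooth 𝒜.L ρ]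
    (σ : Representation (ZMod p) 𝒜.G Y) [Smooth 𝒜.L σ] (d' : DualPair 𝒜.ω σ ρ)
    (Lc : ∀ v, Submodule (ZMod p) (H1 (𝒜.Lv v) (rsub ρ (𝒜.D v)))) (Qs : Set 𝒜.ι)
    (hQ : ∀ v ∈ Qs, Lc v = ⊤)
    (hkill : ∀ y : H1 𝒜.L σ, (∀ v ∈ Qs, (𝒜.loc v σ).map1 y = 0) → y = 0) :
    (finrank (ZMod p) (Sel 𝒜 ρ Lc) : ℤ) ≤ 𝒜.chi σ + 𝒜.h0 ρ - 𝒜.h0 σ
      + ∑ v, ((finrank (ZMod p) (Lc v) : ℤ) - finrank (ZMod p) (H0 (rsub ρ (𝒜.D v)))) := by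
  have := ax.fin1 ρ
  have := ax.fin1 σ
  have := ax.finP1 ρ
  have := ax.finP1 σ
  have := fun v => ax.finLoc1 ρ v
  -- the map "components outside `Qs`"
  set f : H1 𝒜.L ρ →ₗ[ZMod p] 𝒜.P1 ρ := (LinearMap.id - cut1 𝒜 Qs ρ) ∘ₗ 𝒜.loc1 ρ with hf
  set N0 : Submodule (ZMod p) (H1 𝒜.L ρ) := LinearMap.ker f with hN0def
  have hN0 : ∀ x ∈ N0, cut1 𝒜 Qs ρ (𝒜.loc1 ρ x) = 𝒜.loc1 ρ x := by
    intro x hx
    have h : 𝒜.loc1 ρ x - cut1 𝒜 Qs ρ (𝒜.loc1 ρ x) = 0 := hx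
    exact (sub_eq_zero.1 h).symm
  have K := cutD4 ax d' Qs N0 hN0
  -- `B_Q` has dimension `h¹(X')`
  set gB : H1 𝒜.L σ →ₗ[ZMod p] 𝒜.P1 σ := cut1 𝒜 Qs σ ∘ₗ 𝒜.loc1 σ with hgB
  have hinj : Injective gB := by
    rw [injective_iff_map_eq_zero]
    intro y hy
    apply hkill
    intro v hv
    have h := congrFun hy v
    rw [hgB, LinearMap.comp_apply, cut1_of_mem hv] at h
    exact h
  have KB := LinearMap.finrank_range_of_inj hinj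
  -- coordinates
  let pr : ∀ v, 𝒜.P1 ρ →ₗ[ZMod p] H1 (𝒜.Lv v) (rsub ρ (𝒜.D v)) := fun v => LinearMap.proj v
  have hcoord : ∀ x : 𝒜.P1 ρ, (∀ v, pr v x = 0) → x = 0 := fun x hx => funext hx
  have K1 := finrank_le_sum_of_coord (k := ZMod p) (V := 𝒜.P1 ρ)
    (W := fun v => H1 (𝒜.Lv v) (rsub ρ (𝒜.D v))) pr hcoord
    (fun v => if v ∈ Qs then ⊤ else ⊥) (LinearMap.range (cut1 𝒜 Qs ρ)) (by
      rintro _ ⟨x, rfl⟩ v
      by_cases hv : v ∈ Qs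
      · simp [hv]
      · simp only [hv, if_false, Submodule.mem_bot]
        exact cut1_of_not_mem hv x)
  have K2 := finrank_le_sum_of_coord (k := ZMod p) (V := 𝒜.P1 ρ)
    (W := fun v => H1 (𝒜.Lv v) (rsub ρ (𝒜.D v))) pr hcoord
    (fun v => if v ∈ Qs then ⊥ else Lc v) ((Sel 𝒜 ρ Lc).map f) (by
      rintro _ ⟨x, hx, rfl⟩ v
      have h : f x v = 𝒜.loc1 ρ x v - cut1 𝒜 Qs ρ (𝒜.loc1 ρ x) v := rfl
      by_cases hv : v ∈ Qs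
      · simp only [hv, if_true, Submodule.mem_bot]
        change f x v = 0
        rw [h, cut1_of_mem hv, sub_self]
      · simp only [hv, if_false]
        change f x v ∈ Lc v
        rw [h, cut1_of_not_mem hv, sub_zero]
        exact hx v)
  have K3 := LA.finrank_map_add (k := ZMod p) (V := H1 𝒜.L ρ) (W := 𝒜.P1 ρ) f (Sel 𝒜 ρ Lc)
  have K3' : finrank (ZMod p) (Sel 𝒜 ρ Lc ⊓ LinearMap.ker f : Submodule (ZMod p) (H1 𝒜.L ρ))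
      ≤ finrank (ZMod p) N0 := Submodule.finrank_mono inf_le_right
  have K4 := LA.finrank_map_add (k := ZMod p) (V := H1 𝒜.L ρ) (W := 𝒜.P1 ρ) (𝒜.loc1 ρ) N0
  have K4' : finrank (ZMod p) (N0 ⊓ LinearMap.ker (𝒜.loc1 ρ) : Submodule (ZMod p) (H1 𝒜.L ρ))
      ≤ finrank (ZMod p) (𝒜.Sha1 ρ) := Submodule.finrank_mono inf_le_right
  have K5 : (∑ v, finrank (ZMod p) ↥(if v ∈ Qs then
        (⊤ : Submodule (ZMod p) (H1 (𝒜.Lv v) (rsub ρ (𝒜.D v)))) else ⊥))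
      + (∑ v, finrank (ZMod p) ↥(if v ∈ Qs then ⊥ else Lc v)) = ∑ v, finrank (ZMod p) (Lc v) := by
    rw [← Finset.sum_add_distrib]
    refine Finset.sum_congr rfl fun v _ => ?_
    by_cases hv : v ∈ Qs
    · rw [if_pos hv, if_pos hv, hQ v hv, finrank_bot, add_zero]
    · rw [if_neg hv, if_neg hv, finrank_bot, zero_add]
  -- numerics from S55/D
  have e1 := ax.h2_eq σ
  have e2 := ax.s1_le_s2 d'
  have e3 := ax.c_eq_h0 d'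
  have e4 := ax.p2_eq_p0 d'
  have e5 : 𝒜.p0 ρ = ∑ v, (finrank (ZMod p) (H0 (rsub ρ (𝒜.D v))) : ℤ) := by
    unfold Datum.p0
    rw [Module.finrank_pi_fintype]
    push_cast
    rfl
  have e6 : 𝒜.h1 σ = finrank (ZMod p) (H1 𝒜.L σ) := rfl
  have e7 : 𝒜.s1 ρ = finrank (ZMod p) (𝒜.Sha1 ρ) := rfl
  have e8 : 𝒜.chi σ = 𝒜.h0 σ - 𝒜.h1 σ + 𝒜.h2 σ := rfl
  have e9 : 𝒜.c σ = 𝒜.p2 σ - 𝒜.r2 σ := rfl
  rw [Finset.sum_sub_distrib, ← e5]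
  have K5' : ((∑ v, finrank (ZMod p) (Lc v) : ℕ) : ℤ) = ∑ v, (finrank (ZMod p) (Lc v) : ℤ) := by
    push_cast
    rfl
  rw [← K5']
  omega

/-- **Greenberg–Wiles inequality.** -/
theorem finrank_Sel_le (ax : 𝒜.Axioms) (ρ : Representation (ZMod p) 𝒜.G X) [Smooth 𝒜.L ρ]
    (Lc : ∀ v, Submodule (ZMod p) (H1 (𝒜.Lv v) (rsub ρ (𝒜.D v)))) (Qs : Set 𝒜.ι)
    (hQ : ∀ v ∈ Qs, Lc v = ⊤)
    (hkill : ∀ y : H1 𝒜.L (𝒜.dualT ρ),
      (∀ v ∈ Qs, (𝒜.loc v (𝒜.dualT ρ)).map1 y = 0) → y = 0) :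
    (finrank (ZMod p) (Sel 𝒜 ρ Lc) : ℤ) ≤ 𝒜.chi (𝒜.dualT ρ) + 𝒜.h0 ρ - 𝒜.h0 (𝒜.dualT ρ)
      + ∑ v, ((finrank (ZMod p) (Lc v) : ℤ) - finrank (ZMod p) (H0 (rsub ρ (𝒜.D v)))) :=
  finrank_Sel_le_of ax ρ (𝒜.dualT ρ) (DualPair.canon 𝒜.ω ρ).flip Lc Qs hQ hkill

end Fermat.Agent.S56.GW

end
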